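import Mathlib
import Fermat.Prelude.Def_CuspForm_IntegralLattice
import Fermat.Prelude.Def_CuspForm_HeckeAlgebra
import Fermat.Prelude.Def_CuspForm_IntegralStructure
import Fermat.Prelude.Thm_CuspForm_intLattice_fg
import Fermat.Prelude.Thm_CuspForm_mem_intLattice_of_mem_heckeAlgebra
import Fermat.Prelude.Thm_ModularFormClass_qCoeff_heckeT
import Fermat.Prelude.Thm_ModularFormClass_qCoeff_heckeU
import Fermat.Prelude.Thm_CongruenceSubgroup_one_mem_strictPeriods_Gamma0

/-!
# q-coefficients of cusp forms on `Γ₀(N)` and the Hecke operators `T_n`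
-/

set_option autoImplicit false

open CuspForm CongruenceSubgroup ModularFormClass UpperHalfPlane

namespace Fermat.Agent.S49

variable {N : ℕ} {k : ℤ}

theorem hGam (N : ℕ) :
    (1 : ℝ) ∈ (Subgroup.map (Matrix.SpecialLinearGroup.mapGL ℝ) (Gamma0 N)).strictPeriods :=
  CongruenceSubgroup.one_mem_strictPeriods_Gamma0 N

theorem qc_add (f g : CuspForm (Gamma0 N) k) (n : ℕ) :
    qCoeff ⇑(f + g) n = qCoeff ⇑f n + qCoeff ⇑g n := by
  simp only [qCoeff, FunLike.coe_add]
  rw [ModularForm.qExpansion_add one_pos (hGam N) f g, map_add]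

theorem qc_smul (c : ℂ) (f : CuspForm (Gamma0 N) k) (n : ℕ) :
    qCoeff ⇑(c • f) n = c * qCoeff ⇑f n := by
  have h1 : ⇑(c • f) = c • ⇑f := by
    ext z
    simp
  simp only [qCoeff, h1]
  rw [ModularForm.qExpansion_smul one_pos (hGam N) c f]
  simp

/-- The `n`-th q-coefficient as a linear functional. -/
noncomputable def qcLin (N : ℕ) (k : ℤ) (n : ℕ) : CuspForm (Gamma0 N) k →ₗ[ℂ] ℂ where
  toFun f := qCoeff ⇑f n
  map_add' f g := qc_add f g n
  map_smul' c f := by
    simp only [RingHom.id_apply, smul_eq_mul]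
    exact qc_smul c f n

@[simp] theorem qcLin_apply (n : ℕ) (f : CuspForm (Gamma0 N) k) :
    qcLin N k n f = qCoeff ⇑f n := rfl

theorem qc_zero (n : ℕ) : qCoeff ⇑(0 : CuspForm (Gamma0 N) k) n = 0 := by
  have := (qcLin N k n).map_zero
  simpa using this

theorem qc_neg (f : CuspForm (Gamma0 N) k) (n : ℕ) :
    qCoeff ⇑(-f) n = - qCoeff ⇑f n := by
  have := (qcLin N k n).map_neg f
  simpa using this

theorem qc_sub (f g : CuspForm (Gamma0 N) k) (n : ℕ) :
    qCoeff ⇑(f - g) n = qCoeff ⇑f n - qCoeff ⇑g n := by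
  have := (qcLin N k n).map_sub f g
  simpa using this

theorem qc_zsmul (c : ℤ) (f : CuspForm (Gamma0 N) k) (n : ℕ) :
    qCoeff ⇑(c • f) n = (c : ℂ) * qCoeff ⇑f n := by
  have h : c • f = (c : ℂ) • f := by
    rw [Int.cast_smul_eq_zsmul]
  rw [h, qc_smul]

/-- The constant coefficient of a cusp form vanishes. -/
theorem qc_cusp_zero (f : CuspForm (Gamma0 N) k) : qCoeff ⇑f 0 = 0 := by
  simp only [qCoeff]
  exact CuspFormClass.qExpansion_coeff_zero f one_pos (hGam N)

/-- q-expansion principle. -/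
theorem eq_zero_of_forall_qc (f : CuspForm (Gamma0 N) k) (h : ∀ n : ℕ, qCoeff ⇑f n = 0) :
    f = 0 := by
  have h0 : qExpansion 1 ⇑f = 0 := by
    ext n
    simpa [qCoeff] using h n
  have hcusp : Fact (IsCusp OnePoint.infty
      (Subgroup.map (Matrix.SpecialLinearGroup.mapGL ℝ) (Gamma0 N))) :=
    ⟨Subgroup.isCusp_of_mem_strictPeriods one_pos (hGam N)⟩
  have h1 : (⇑f : ℍ → ℂ) = 0 :=
    (UpperHalfPlane.qExpansion_eq_zero_iff (h := 1) one_pos
      (by simpa using SlashInvariantFormClass.periodic_comp_ofComplex f (hGam N))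
      (ModularFormClass.holo f) (ModularFormClass.bdd_at_infty f)).mp h0
  exact DFunLike.coe_injective (h1.trans (by rfl))

theorem eq_of_forall_qc (f g : CuspForm (Gamma0 N) k)
    (h : ∀ n : ℕ, qCoeff ⇑f n = qCoeff ⇑g n) : f = g := by
  have : f - g = 0 := eq_zero_of_forall_qc _ fun n => by rw [qc_sub, h n, sub_self]
  exact sub_eq_zero.mp this

theorem qc_heckeT {p : ℕ} (hp : p.Prime) (hpN : ¬ p ∣ N) (f : CuspForm (Gamma0 N) k) (n : ℕ) :
    qCoeff ⇑(CuspForm.heckeTLin k hp hpN f) n =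
      qCoeff ⇑f (n * p) + if p ∣ n then (p : ℂ) ^ (k - 1) * qCoeff ⇑f (n / p) else 0 := by
  rw [CuspForm.coe_heckeTLin_apply, ModularFormClass.qCoeff_heckeT f (hGam N) hp.ne_zero n,
    ModularForm.coeffHeckeT_apply]

theorem qc_heckeU [NeZero N] {p : ℕ} (hp : p.Prime) (hpN : p ∣ N) (f : CuspForm (Gamma0 N) k)
    (n : ℕ) :
    qCoeff ⇑(CuspForm.heckeULin k hpN f) n = qCoeff ⇑f (n * p) := by
  rw [CuspForm.coe_heckeULin_apply, ModularFormClass.qCoeff_heckeU f (hGam N) hp.ne_zero n,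
    ModularForm.coeffHeckeU_apply]

/-- For each `n ≥ 1` there is an element `T_n` of the Hecke algebra with
`a_1(T_n f) = a_n(f)`. -/
theorem exists_hecke_n (N : ℕ) [NeZero N] (k : ℤ) (hk : 1 ≤ k) :
    ∀ n : ℕ, 1 ≤ n → ∃ T ∈ CuspForm.heckeAlgebra N k ∅,
      ∀ f : CuspForm (Gamma0 N) k, qCoeff ⇑(T f) 1 = qCoeff ⇑f n := by
  intro n
  induction n using Nat.strong_induction_on with
  | _ n ih =>
    intro hn
    rcases Nat.eq_or_lt_of_le hn with hn1 | hn1
    · refine ⟨1, Subalgebra.one_mem _, fun f => ?_⟩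
      rw [← hn1]; rfl
    have hn2 : n ≠ 1 := by omega
    set ℓ := n.minFac with hℓdef
    have hℓ : ℓ.Prime := Nat.minFac_prime hn2
    obtain ⟨m, hm⟩ : ℓ ∣ n := Nat.minFac_dvd n
    have hmpos : 1 ≤ m := by
      rcases Nat.eq_zero_or_pos m with h0 | h0
      · rw [h0, mul_zero] at hm; omega
      · exact h0
    have hmlt : m < n := by
      rw [hm]
      calc m = 1 * m := (one_mul _).symm
        _ < ℓ * m := Nat.mul_lt_mul_of_pos_right hℓ.one_lt hmpos
    obtain ⟨Tm, hTm, hTm'⟩ := ih m hmlt hmpos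
    have hnm : n = m * ℓ := by rw [hm, mul_comm]
    by_cases hℓN : ℓ ∣ N
    · -- `U_ℓ`
      refine ⟨Tm * CuspForm.heckeULin k hℓN,
        Subalgebra.mul_mem _ hTm
          (CuspForm.heckeULin_mem_heckeAlgebra hℓ hℓN (Set.notMem_empty _)), fun f => ?_⟩
      rw [Module.End.mul_apply, hTm', qc_heckeU hℓ hℓN, ← hnm]
    · -- `T_ℓ`
      have hTℓ : CuspForm.heckeTLin k hℓ hℓN ∈ CuspForm.heckeAlgebra N k ∅ :=
        CuspForm.heckeTLin_mem_heckeAlgebra hℓ hℓN (Set.notMem_empty _)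
      by_cases hd : ℓ ∣ m
      · obtain ⟨m', hm'⟩ := hd
        have hm'pos : 1 ≤ m' := by
          rcases Nat.eq_zero_or_pos m' with h0 | h0
          · rw [h0, mul_zero] at hm'; omega
          · exact h0
        have hm'lt : m' < n := by
          have : m' < m := by
            rw [hm']
            calc m' = 1 * m' := (one_mul _).symm
              _ < ℓ * m' := Nat.mul_lt_mul_of_pos_right hℓ.one_lt hm'pos
          omega
        obtain ⟨Tm', hTm'mem, hTm'eq⟩ := ih m' hm'lt hm'pos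
        have hdiv : m / ℓ = m' := by rw [hm', Nat.mul_div_cancel_left _ hℓ.pos]
        refine ⟨Tm * CuspForm.heckeTLin k hℓ hℓN - ((ℓ : ℤ) ^ (k - 1).toNat) • Tm', ?_, fun f => ?_⟩
        · exact Subalgebra.sub_mem _ (Subalgebra.mul_mem _ hTm hTℓ)
            (Subalgebra.zsmul_mem _ hTm'mem _)
        · rw [LinearMap.sub_apply, Module.End.mul_apply, LinearMap.smul_apply, qc_sub, hTm',
            qc_zsmul, hTm'eq, qc_heckeT hℓ hℓN, if_pos ⟨m', hm'⟩, hdiv, ← hnm]
          have hcast : (((ℓ : ℤ) ^ (k - 1).toNat : ℤ) : ℂ) = (ℓ : ℂ) ^ (k - 1) := by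
            have hk1 : ((k - 1).toNat : ℤ) = k - 1 := Int.toNat_of_nonneg (by omega)
            rw [← hk1]
            push_cast
            rw [zpow_natCast]
            simp
          rw [hcast]
          ring
      · refine ⟨Tm * CuspForm.heckeTLin k hℓ hℓN, Subalgebra.mul_mem _ hTm hTℓ, fun f => ?_⟩
        rw [Module.End.mul_apply, hTm', qc_heckeT hℓ hℓN, if_neg hd, add_zero, ← hnm]

end Fermat.Agent.S49
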