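import Mathlib

/-!
# Abstract algebra input for the Deligne–Serre lifting lemma
-/

set_option autoImplicit false

namespace Fermat.Agent.S49

/-- Given an injective ring hom `ι : 𝕋 → A` into a finite-dimensional commutative algebra over an
algebraically closed field `K`, and a prime ideal `𝔪` of `𝕋`, there is a `K`-algebra character of
`A` whose restriction to `𝕋` has kernel contained in `𝔪`. -/
theorem exists_algHom_ker_le {K 𝕋 A : Type*} [Field K] [IsAlgClosed K] [CommRing 𝕋] [CommRing A]
    [Algebra K A] [FiniteDimensional K A]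
    (ι : 𝕋 →+* A) (hι : Function.Injective ι) (𝔪 : Ideal 𝕋) [𝔪.IsPrime] :
    ∃ χ : A →ₐ[K] K, ∀ x : 𝕋, χ (ι x) = 0 → x ∈ 𝔪 := by
  obtain ⟨𝔭, h𝔭min, h𝔭le⟩ := Ideal.exists_minimalPrimes_le (bot_le : (⊥ : Ideal 𝕋) ≤ 𝔪)
  obtain ⟨𝔮, h𝔮prime, h𝔮comap⟩ :=
    Ideal.exists_comap_eq_of_mem_minimalPrimes_of_injective hι 𝔭 h𝔭min
  have := h𝔮prime
  have hbij : Function.Bijective (algebraMap K (A ⧸ 𝔮)) :=
    IsAlgClosed.algebraMap_bijective_of_isIntegral
  let e : K ≃ₐ[K] (A ⧸ 𝔮) := AlgEquiv.ofBijective (Algebra.ofId K (A ⧸ 𝔮)) hbij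
  refine ⟨(e.symm : (A ⧸ 𝔮) →ₐ[K] K).comp (Ideal.Quotient.mkₐ K 𝔮), fun x hx => ?_⟩
  have h1 : e.symm (Ideal.Quotient.mk 𝔮 (ι x)) = 0 := hx
  have h2 : Ideal.Quotient.mk 𝔮 (ι x) = 0 := by
    have := congrArg e h1
    simpa using this
  have h3 : ι x ∈ 𝔮 := Ideal.Quotient.eq_zero_iff_mem.mp h2
  have h4 : x ∈ 𝔭 := by
    rw [← h𝔮comap]
    exact h3
  exact h𝔭le h4

/-- Perfectness of the "`a₁`-pairing": if a commutative algebra `A` acts faithfully on a
finite-dimensional space `V` and the functional `lam` is such that `v ↦ (T ↦ lam (T v))` is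
injective, then every linear functional on `A` is of the form `T ↦ lam (T v)`. -/
theorem exists_vector_of_pairing {K A V : Type*} [Field K] [CommRing A] [Algebra K A]
    [AddCommGroup V] [Module K V] [FiniteDimensional K V]
    (ρ : A →ₐ[K] Module.End K V) (hρ : Function.Injective ρ) (lam : V →ₗ[K] K)
    (hnd : ∀ v : V, (∀ T : A, lam (ρ T v) = 0) → v = 0) (χ : A →ₗ[K] K) :
    FiniteDimensional K A ∧ ∃ v : V, ∀ T : A, lam (ρ T v) = χ T := by
  -- the two maps induced by the pairing
  let Φ : V →ₗ[K] (Module.Dual K A) :=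
    { toFun := fun v =>
        { toFun := fun T => lam (ρ T v)
          map_add' := fun S T => by simp [map_add]
          map_smul' := fun c T => by simp [map_smul] }
      map_add' := fun v w => by
        ext T
        simp [map_add]
      map_smul' := fun c v => by
        ext T
        simp [map_smul] }
  let Ψ : A →ₗ[K] (Module.Dual K V) :=
    { toFun := fun T => lam ∘ₗ (ρ T)
      map_add' := fun S T => by
        ext v
        simp [map_add]
      map_smul' := fun c T => by
        ext v
        simp [map_smul] }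
  have hΦ : Function.Injective Φ := by
    refine (injective_iff_map_eq_zero Φ).mpr fun v hv => hnd v fun T => ?_
    have := congrArg (fun φ : Module.Dual K A => φ T) hv
    simpa [Φ] using this
  have hΨ : Function.Injective Ψ := by
    refine (injective_iff_map_eq_zero Ψ).mpr fun T hT => ?_
    have hT' : ∀ v : V, lam (ρ T v) = 0 := fun v => by
      have := congrArg (fun φ : Module.Dual K V => φ v) hT
      simpa [Ψ] using this
    apply hρ
    rw [map_zero]
    ext v
    refine hnd _ fun S => ?_
    have : ρ S (ρ T v) = ρ T (ρ S v) := by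
      rw [← Module.End.mul_apply, ← Module.End.mul_apply, ← map_mul, ← map_mul, mul_comm]
    rw [this]
    exact hT' _
  have hfin : FiniteDimensional K A := FiniteDimensional.of_injective Ψ hΨ
  refine ⟨hfin, ?_⟩
  have h1 : Module.finrank K A ≤ Module.finrank K V := by
    calc Module.finrank K A ≤ Module.finrank K (Module.Dual K V) :=
          LinearMap.finrank_le_finrank_of_injective hΨ
      _ = Module.finrank K V := Subspace.dual_finrank_eq
  have h2 : Module.finrank K V ≤ Module.finrank K A := by
    calc Module.finrank K V ≤ Module.finrank K (Module.Dual K A) :=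
          LinearMap.finrank_le_finrank_of_injective hΦ
      _ = Module.finrank K A := Subspace.dual_finrank_eq
  have h3 : Module.finrank K V = Module.finrank K (Module.Dual K A) := by
    rw [Subspace.dual_finrank_eq]
    exact le_antisymm h2 h1
  have hsurj : Function.Surjective Φ :=
    (LinearMap.injective_iff_surjective_of_finrank_eq_finrank h3).mp hΦ
  obtain ⟨v, hv⟩ := hsurj χ
  refine ⟨v, fun T => ?_⟩
  have := congrArg (fun φ : Module.Dual K A => φ T) hv
  simpa [Φ] using this

/-- A vector space spanned by a finitely generated `ℤ`-submodule is finite-dimensional. -/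
theorem finite_of_fg_lattice {K V : Type*} [Field K] [AddCommGroup V] [Module K V]
    (L : Submodule ℤ V) (hL : L.FG) (hspan : Submodule.span K (L : Set V) = ⊤) :
    Module.Finite K V := by
  obtain ⟨S, hSfin, hS⟩ := Submodule.fg_def.mp hL
  refine Module.finite_def.mpr (Submodule.fg_def.mpr ⟨S, hSfin, ?_⟩)
  rw [← hspan, ← hS, Submodule.span_span_of_tower]

/-- An endomorphism of a vector space preserving a finitely generated spanning `ℤ`-lattice is
integral over `ℤ`. -/
theorem isIntegral_of_preserves_lattice {K V : Type*} [Field K] [AddCommGroup V] [Module K V]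
    (L : Submodule ℤ V) (hL : L.FG) (hspan : Submodule.span K (L : Set V) = ⊤)
    (T : Module.End K V) (hT : ∀ x ∈ L, T x ∈ L) : IsIntegral ℤ T := by
  have : Module.Finite ℤ L := Module.Finite.iff_fg.mpr hL
  let TL : Module.End ℤ L := (T.restrictScalars ℤ).restrict hT
  obtain ⟨P, hPmonic, hP⟩ := Algebra.IsIntegral.isIntegral (R := ℤ) TL
  refine ⟨P, hPmonic, ?_⟩
  have key : ∀ (Q : Polynomial ℤ) (x : L),
      (Polynomial.aeval T Q) (x : V) = ((Polynomial.aeval TL Q) x : V) := by
    intro Q
    induction Q using Polynomial.induction_on with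
    | C a =>
      intro x
      simp
    | add p q hp hq =>
      intro x
      simp [map_add, hp x, hq x]
    | monomial n a ih =>
      intro x
      have e1 : Polynomial.aeval T (Polynomial.C a * Polynomial.X ^ (n + 1)) =
          Polynomial.aeval T (Polynomial.C a * Polynomial.X ^ n) * T := by
        simp [pow_succ, mul_assoc]
      have e2 : Polynomial.aeval TL (Polynomial.C a * Polynomial.X ^ (n + 1)) =
          Polynomial.aeval TL (Polynomial.C a * Polynomial.X ^ n) * TL := by
        simp [pow_succ, mul_assoc]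
      rw [e1, e2, Module.End.mul_apply, Module.End.mul_apply]
      have hx : ((TL x : L) : V) = T (x : V) := rfl
      have := ih (TL x)
      rw [hx] at this
      exact this
  have hP' : Polynomial.aeval TL P = 0 := hP
  change Polynomial.aeval T P = 0
  apply LinearMap.ext_on hspan
  intro x hx
  have := key P ⟨x, hx⟩
  rw [hP'] at this
  simpa using this

/-- A weak form of lying-over: for a ring hom `φ : R → S` with `S` integral over `ℤ` and a proper
ideal `𝔪` containing the kernel, some maximal ideal of `S` contains `φ(𝔪)`. -/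
theorem exists_maximal_ideal_map_le {R S : Type*} [CommRing R] [CommRing S]
    [Algebra.IsIntegral ℤ S] (φ : R →+* S) (𝔪 : Ideal R) (h𝔪 : 𝔪 ≠ ⊤)
    (hker : RingHom.ker φ ≤ 𝔪) :
    ∃ 𝔪' : Ideal S, 𝔪'.IsMaximal ∧ ∀ x ∈ 𝔪, φ x ∈ 𝔪' := by
  have hint : φ.IsIntegral := by
    have h1 : (φ.comp (Int.castRingHom R)).IsIntegral := by
      have : φ.comp (Int.castRingHom R) = algebraMap ℤ S := RingHom.ext_int _ _
      rw [this]
      exact algebraMap_isIntegral_iff.mpr inferInstance
    exact RingHom.IsIntegral.tower_top _ _ h1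
  have hne : Ideal.map φ 𝔪 ≠ ⊤ := fun h =>
    h𝔪 ((Ideal.map_eq_top_iff_of_ker_le φ hker hint).mp h)
  obtain ⟨𝔪', hmax, hle⟩ := Ideal.exists_le_maximal _ hne
  exact ⟨𝔪', hmax, fun x hx => hle (Ideal.mem_map_of_mem φ hx)⟩

end Fermat.Agent.S49
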