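import Mathlib
import Fermat.Prelude.Def_FormalHecke_Eigensystem

/-!
# Formal consequences of the Hecke eigen-relations

If `a (ℓ * n) + e ℓ * [ℓ ∣ n] a (n / ℓ) = a ℓ * a n` for all primes `ℓ` and all `n`, and `a 1 = 1`,
then `a` is multiplicative on coprime arguments and satisfies the usual prime power recursion.
-/

set_option autoImplicit false

namespace Fermat.Agent.S49

variable {R : Type*} [CommRing R]

theorem formal_primePow_rec {e a : ℕ → R} (h : FormalHecke.IsEigensystem e a)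
    {ℓ : ℕ} (hℓ : ℓ.Prime) (r : ℕ) :
    a (ℓ ^ (r + 2)) = a ℓ * a (ℓ ^ (r + 1)) - e ℓ * a (ℓ ^ r) := by
  have h1 := h.2 ℓ hℓ (ℓ ^ (r + 1))
  have hdvd : ℓ ∣ ℓ ^ (r + 1) := dvd_pow_self ℓ (Nat.succ_ne_zero r)
  rw [if_pos hdvd] at h1
  have hdiv : ℓ ^ (r + 1) / ℓ = ℓ ^ r := by
    rw [pow_succ, Nat.mul_div_cancel _ hℓ.pos]
  rw [hdiv] at h1
  have hmul : ℓ * ℓ ^ (r + 1) = ℓ ^ (r + 2) := by ring
  rw [hmul] at h1
  rw [← h1]; ring

theorem formal_mul_of_coprime {e a : ℕ → R} (h : FormalHecke.IsEigensystem e a) :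
    ∀ m n : ℕ, m.Coprime n → a (m * n) = a m * a n := by
  intro m
  induction m using Nat.strong_induction_on with
  | _ m ih =>
    intro n hmn
    rcases Nat.eq_zero_or_pos m with hm0 | hmpos
    · subst hm0
      have hn : n = 1 := by simpa using hmn
      subst hn
      rw [h.1]; simp
    rcases Nat.eq_or_lt_of_le (Nat.succ_le_of_lt hmpos) with hm1 | hm1
    · have hm1' : m = 1 := hm1.symm
      subst hm1'
      rw [h.1]; simp
    -- now `2 ≤ m`
    have hm2 : m ≠ 1 := by omega
    set ℓ := m.minFac with hℓdef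
    have hℓ : ℓ.Prime := Nat.minFac_prime hm2
    obtain ⟨m', hm'⟩ : ℓ ∣ m := Nat.minFac_dvd m
    have hm'pos : 0 < m' := by
      rcases Nat.eq_zero_or_pos m' with h0 | h0
      · rw [h0, mul_zero] at hm'; omega
      · exact h0
    have hm'lt : m' < m := by
      rw [hm']
      calc m' = 1 * m' := (one_mul _).symm
        _ < ℓ * m' := Nat.mul_lt_mul_of_pos_right hℓ.one_lt hm'pos
    have hcop' : m'.Coprime n := Nat.Coprime.coprime_dvd_left ⟨ℓ, by rw [hm', mul_comm]⟩ hmn
    have hℓn : ¬ ℓ ∣ n := by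
      intro hdn
      have : ℓ ∣ Nat.gcd m n := Nat.dvd_gcd (Nat.minFac_dvd m) hdn
      rw [Nat.Coprime] at hmn
      rw [hmn] at this
      exact hℓ.one_lt.ne' (Nat.dvd_one.mp this)
    have e1 := h.2 ℓ hℓ (m' * n)
    have e2 := h.2 ℓ hℓ m'
    have hmn' : m * n = ℓ * (m' * n) := by rw [hm']; ring
    rw [hmn', hm']
    by_cases hd : ℓ ∣ m'
    · have hd' : ℓ ∣ m' * n := Dvd.dvd.mul_right hd n
      rw [if_pos hd'] at e1
      rw [if_pos hd] at e2
      obtain ⟨m'', hm''⟩ := hd
      have hm''pos : 0 < m'' := by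
        rcases Nat.eq_zero_or_pos m'' with h0 | h0
        · rw [h0, mul_zero] at hm''; omega
        · exact h0
      have hm''lt : m'' < m := by
        have : m'' < m' := by
          rw [hm'']
          calc m'' = 1 * m'' := (one_mul _).symm
            _ < ℓ * m'' := Nat.mul_lt_mul_of_pos_right hℓ.one_lt hm''pos
        omega
      have hcop'' : m''.Coprime n :=
        Nat.Coprime.coprime_dvd_left ⟨ℓ, by rw [hm'', mul_comm]⟩ hcop'
      have hdiv1 : m' * n / ℓ = m'' * n := by
        rw [hm'', mul_assoc, Nat.mul_div_cancel_left _ hℓ.pos]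
      have hdiv2 : m' / ℓ = m'' := by
        rw [hm'', Nat.mul_div_cancel_left _ hℓ.pos]
      rw [hdiv1, ih m' hm'lt n hcop', ih m'' hm''lt n hcop''] at e1
      rw [hdiv2] at e2
      have e1' : a (ℓ * (m' * n)) = a ℓ * (a m' * a n) - e ℓ * (a m'' * a n) := by
        rw [← e1]; ring
      have e2' : a (ℓ * m') = a ℓ * a m' - e ℓ * a m'' := by
        rw [← e2]; ring
      rw [e1', e2']; ring
    · have hd' : ¬ ℓ ∣ m' * n := by
        intro hdv
        rcases (Nat.Prime.dvd_mul hℓ).mp hdv with h1 | h1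
        · exact hd h1
        · exact hℓn h1
      rw [if_neg hd'] at e1
      rw [if_neg hd] at e2
      rw [ih m' hm'lt n hcop'] at e1
      have e1' : a (ℓ * (m' * n)) = a ℓ * (a m' * a n) := by
        rw [← e1]; ring
      have e2' : a (ℓ * m') = a ℓ * a m' := by
        rw [← e2]; ring
      rw [e1', e2']; ring

end Fermat.Agent.S49
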