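import Mathlib
import Fermat.Agent.S49.QCoeff
import Fermat.Prelude.Def_FormalHecke_Eigensystem
import Fermat.Prelude.Def_ModularForm_EisensteinChiNegThree

/-!
# The mod 3 eigenform and the associated maximal ideal of the Hecke algebra
-/

set_option autoImplicit false

open CuspForm CongruenceSubgroup ModularFormClass UpperHalfPlane EisensteinWeightOne

namespace Fermat.Agent.S49

variable {N : ℕ}

theorem chi_mod3 (ℓ : ℕ) : (3 : ℤ) ∣ (ℓ : ℤ) - chiNegThree ℓ := by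
  unfold chiNegThree
  split_ifs with h1 h2 <;> omega

theorem bridge_coeff_mod3 (a : ℕ → ℤ) (n : ℕ) :
    (3 : ℤ) ∣ (PowerSeries.coeff n (bridgeProduct a)) - a n := by
  have hE : e1Chi3In ℤ = 1 + PowerSeries.C (3 : ℤ) *
      PowerSeries.mk (fun n => if n = 0 then 0 else 2 * sigmaChi n) := by
    ext m
    simp only [e1Chi3In, e1Chi3, PowerSeries.coeff_map, PowerSeries.coeff_mk, map_add,
      PowerSeries.coeff_one, PowerSeries.coeff_C_mul]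
    by_cases hm : m = 0
    · simp [hm]
    · simp [hm]; ring
  unfold bridgeProduct
  rw [hE, mul_add, mul_one, map_add, PowerSeries.coeff_mk, add_sub_cancel_left,
    mul_left_comm, PowerSeries.coeff_C_mul]
  exact dvd_mul_right _ _

/-- membership in the integral lattice -/
theorem mem_intLat_iff (f : CuspForm (Gamma0 N) 2) :
    f ∈ CuspForm.intLattice N 2 ↔ ∀ n : ℕ, ∃ m : ℤ, qCoeff ⇑f n = (m : ℂ) :=
  P2MW.S_CuspForm_intLattice_fg.W3WsD.mem_intLattice_iff f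

theorem qIntegralSet_subset_intLat : qIntegralSet N ⊆ (CuspForm.intLattice N 2 : Set _) := by
  intro f hf
  rw [SetLike.mem_coe, mem_intLat_iff]
  intro n
  obtain ⟨m, hm⟩ := Subring.mem_bot.mp (hf n)
  exact ⟨m, hm.symm⟩

theorem span_intLat_eq_top (h : CuspForm.HasIntegralBasis N) :
    Submodule.span ℂ (CuspForm.intLattice N 2 : Set (CuspForm (Gamma0 N) 2)) = ⊤ := by
  rw [eq_top_iff]
  have h' : Submodule.span ℂ (qIntegralSet N) = ⊤ := h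
  rw [← h']
  exact Submodule.span_mono qIntegralSet_subset_intLat

/-- The forms all of whose q-coefficients are integers divisible by `3`. -/
def L3 (N : ℕ) : Set (CuspForm (Gamma0 N) 2) :=
  {f | ∀ n : ℕ, ∃ m : ℤ, qCoeff ⇑f n = 3 * (m : ℂ)}

theorem L3_zero : (0 : CuspForm (Gamma0 N) 2) ∈ L3 N := fun n => ⟨0, by rw [qc_zero]; simp⟩

theorem L3_add {f g : CuspForm (Gamma0 N) 2} (hf : f ∈ L3 N) (hg : g ∈ L3 N) : f + g ∈ L3 N := by
  intro n
  obtain ⟨m, hm⟩ := hf n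
  obtain ⟨m', hm'⟩ := hg n
  exact ⟨m + m', by rw [qc_add, hm, hm']; push_cast; ring⟩

theorem L3_neg {f : CuspForm (Gamma0 N) 2} (hf : f ∈ L3 N) : -f ∈ L3 N := by
  intro n
  obtain ⟨m, hm⟩ := hf n
  exact ⟨-m, by rw [qc_neg, hm]; push_cast; ring⟩

theorem L3_sub {f g : CuspForm (Gamma0 N) 2} (hf : f ∈ L3 N) (hg : g ∈ L3 N) : f - g ∈ L3 N := by
  rw [sub_eq_add_neg]
  exact L3_add hf (L3_neg hg)

theorem L3_zsmul (c : ℤ) {f : CuspForm (Gamma0 N) 2} (hf : f ∈ L3 N) : c • f ∈ L3 N := by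
  intro n
  obtain ⟨m, hm⟩ := hf n
  exact ⟨c * m, by rw [qc_zsmul, hm]; push_cast; ring⟩

theorem three_zsmul_mem_L3 {f : CuspForm (Gamma0 N) 2} (hf : f ∈ CuspForm.intLattice N 2) :
    (3 : ℤ) • f ∈ L3 N := by
  intro n
  obtain ⟨m, hm⟩ := (mem_intLat_iff f).mp hf n
  exact ⟨m, by rw [qc_zsmul, hm]; push_cast; ring⟩

theorem L3_subset_intLat {f : CuspForm (Gamma0 N) 2} (hf : f ∈ L3 N) :
    f ∈ CuspForm.intLattice N 2 := by
  rw [mem_intLat_iff]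
  intro n
  obtain ⟨m, hm⟩ := hf n
  exact ⟨3 * m, by rw [hm]; push_cast; ring⟩

theorem hecke_L3 [NeZero N] {T : Module.End ℂ (CuspForm (Gamma0 N) 2)}
    (hT : T ∈ CuspForm.heckeAlgebra N 2 ∅) {f : CuspForm (Gamma0 N) 2} (hf : f ∈ L3 N) :
    T f ∈ L3 N := by
  set g : CuspForm (Gamma0 N) 2 := (3⁻¹ : ℂ) • f with hg
  have hgL : g ∈ CuspForm.intLattice N 2 := by
    rw [mem_intLat_iff]
    intro n
    obtain ⟨m, hm⟩ := hf n
    refine ⟨m, ?_⟩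
    rw [hg, qc_smul, hm]
    field_simp
  have hTg : T g ∈ CuspForm.intLattice N 2 :=
    CuspForm.mem_intLattice_of_mem_heckeAlgebra (by norm_num) hT hgL
  have hfg : f = (3 : ℂ) • g := by
    rw [hg, smul_smul]
    norm_num
  intro n
  obtain ⟨m, hm⟩ := (mem_intLat_iff (T g)).mp hTg n
  refine ⟨m, ?_⟩
  rw [hfg, map_smul, qc_smul, hm]

section gens

variable {a : ℕ → ℤ}
  (heig : FormalHecke.IsEigensystem
      (fun ℓ => if ℓ ∣ N then 0 else ((chiNegThree ℓ : ℤ) : ℤ)) a)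
  (f₀ : CuspForm (Gamma0 N) 2) (af : ℕ → ℤ)
  (haf : ∀ n, (af n : ℂ) = qCoeff ⇑f₀ n)
  (hcong : ∀ n, (3 : ℤ) ∣ af n - a n)

include heig haf hcong

theorem gen_T_mod3 {ℓ : ℕ} (hℓ : ℓ.Prime) (hℓN : ¬ ℓ ∣ N) :
    CuspForm.heckeTLin 2 hℓ hℓN f₀ - (a ℓ) • f₀ ∈ L3 N := by
  intro n
  have h5 := heig.2 ℓ hℓ n
  simp only [if_neg hℓN] at h5
  have hχ := chi_mod3 ℓ
  have hpow : ((ℓ : ℂ)) ^ ((2 : ℤ) - 1) = (ℓ : ℂ) := by norm_num
  by_cases hd : ℓ ∣ n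
  · rw [if_pos hd] at h5
    have key : af (n * ℓ) + (ℓ : ℤ) * af (n / ℓ) - a ℓ * af n =
        (af (n * ℓ) - a (n * ℓ)) + (ℓ : ℤ) * (af (n / ℓ) - a (n / ℓ))
          + a (n / ℓ) * ((ℓ : ℤ) - chiNegThree ℓ) - a ℓ * (af n - a n) := by
      rw [mul_comm n ℓ]
      linear_combination h5
    have hdvd : (3 : ℤ) ∣ af (n * ℓ) + (ℓ : ℤ) * af (n / ℓ) - a ℓ * af n := by
      rw [key]
      exact dvd_sub (dvd_add (dvd_add (hcong _) (Dvd.dvd.mul_left (hcong _) _))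
        (Dvd.dvd.mul_left hχ _)) (Dvd.dvd.mul_left (hcong _) _)
    obtain ⟨m, hm⟩ := hdvd
    refine ⟨m, ?_⟩
    rw [qc_sub, qc_zsmul, qc_heckeT hℓ hℓN, if_pos hd, hpow, ← haf, ← haf, ← haf]
    have := congrArg (fun z : ℤ => (z : ℂ)) hm
    push_cast at this
    rw [← this]
  · rw [if_neg hd, mul_zero, add_zero] at h5
    have key : af (n * ℓ) - a ℓ * af n =
        (af (n * ℓ) - a (n * ℓ)) - a ℓ * (af n - a n) := by
      rw [mul_comm n ℓ]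
      linear_combination h5
    have hdvd : (3 : ℤ) ∣ af (n * ℓ) - a ℓ * af n := by
      rw [key]
      exact dvd_sub (hcong _) (Dvd.dvd.mul_left (hcong _) _)
    obtain ⟨m, hm⟩ := hdvd
    refine ⟨m, ?_⟩
    rw [qc_sub, qc_zsmul, qc_heckeT hℓ hℓN, if_neg hd, add_zero, ← haf, ← haf]
    have := congrArg (fun z : ℤ => (z : ℂ)) hm
    push_cast at this
    rw [← this]

theorem gen_U_mod3 [NeZero N] {q : ℕ} (hq : q.Prime) (hqN : q ∣ N) :
    CuspForm.heckeULin 2 hqN f₀ - (a q) • f₀ ∈ L3 N := by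
  intro n
  have h5 := heig.2 q hq n
  simp only [if_pos hqN, zero_mul, add_zero] at h5
  have key : af (n * q) - a q * af n =
      (af (n * q) - a (n * q)) - a q * (af n - a n) := by
    rw [mul_comm n q]
    linear_combination h5
  have hdvd : (3 : ℤ) ∣ af (n * q) - a q * af n := by
    rw [key]
    exact dvd_sub (hcong _) (Dvd.dvd.mul_left (hcong _) _)
  obtain ⟨m, hm⟩ := hdvd
  refine ⟨m, ?_⟩
  rw [qc_sub, qc_zsmul, qc_heckeU hq hqN, ← haf, ← haf]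
  have := congrArg (fun z : ℤ => (z : ℂ)) hm
  push_cast at this
  rw [← this]

theorem all_mod3 [NeZero N] {T : Module.End ℂ (CuspForm (Gamma0 N) 2)}
    (hT : T ∈ CuspForm.heckeAlgebra N 2 ∅) : ∃ c : ℤ, T f₀ - c • f₀ ∈ L3 N := by
  induction hT using Algebra.adjoin_induction with
  | mem x hx =>
    rcases hx with ⟨ℓ, hℓ, hℓN, -, rfl⟩ | ⟨q, hqN, hq, -, rfl⟩
    · exact ⟨a ℓ, gen_T_mod3 heig f₀ af haf hcong hℓ hℓN⟩
    · exact ⟨a q, gen_U_mod3 heig f₀ af haf hcong hq hqN⟩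
  | algebraMap r =>
    refine ⟨r, ?_⟩
    have : (algebraMap ℤ (Module.End ℂ (CuspForm (Gamma0 N) 2)) r) f₀ = r • f₀ := by
      rw [Algebra.algebraMap_eq_smul_one]
      simp
    rw [this, sub_self]
    exact L3_zero
  | add x y hx hy ihx ihy =>
    obtain ⟨c, hc⟩ := ihx
    obtain ⟨c', hc'⟩ := ihy
    refine ⟨c + c', ?_⟩
    have : (x + y) f₀ - (c + c') • f₀ = (x f₀ - c • f₀) + (y f₀ - c' • f₀) := by
      rw [LinearMap.add_apply, add_smul]; abel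
    rw [this]
    exact L3_add hc hc'
  | mul x y hx hy ihx ihy =>
    obtain ⟨c, hc⟩ := ihx
    obtain ⟨c', hc'⟩ := ihy
    refine ⟨c * c', ?_⟩
    have : (x * y) f₀ - (c * c') • f₀ = x (y f₀ - c' • f₀) + c' • (x f₀ - c • f₀) := by
      rw [Module.End.mul_apply, map_sub, map_zsmul, smul_sub, smul_smul, mul_comm c' c]; abel
    rw [this]
    exact L3_add (hecke_L3 hx hc') (L3_zsmul _ hc)

end gens

/-- The ideal of Hecke operators killing `f₀` modulo `3`. -/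
def mIdeal (N : ℕ) [NeZero N] (f₀ : CuspForm (Gamma0 N) 2) :
    Ideal (CuspForm.heckeAlgebra N 2 ∅) where
  carrier := {T | (T : Module.End ℂ (CuspForm (Gamma0 N) 2)) f₀ ∈ L3 N}
  add_mem' := fun {S T} hS hT => by
    have : ((S + T : CuspForm.heckeAlgebra N 2 ∅) : Module.End ℂ (CuspForm (Gamma0 N) 2)) f₀
        = (S : Module.End ℂ (CuspForm (Gamma0 N) 2)) f₀
          + (T : Module.End ℂ (CuspForm (Gamma0 N) 2)) f₀ := rfl
    rw [Set.mem_ofPred_eq, this]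
    exact L3_add hS hT
  zero_mem' := by
    have : ((0 : CuspForm.heckeAlgebra N 2 ∅) : Module.End ℂ (CuspForm (Gamma0 N) 2)) f₀
        = 0 := rfl
    rw [Set.mem_ofPred_eq, this]
    exact L3_zero
  smul_mem' := fun S T hT => by
    have : ((S • T : CuspForm.heckeAlgebra N 2 ∅) : Module.End ℂ (CuspForm (Gamma0 N) 2)) f₀
        = (S : Module.End ℂ (CuspForm (Gamma0 N) 2))
          ((T : Module.End ℂ (CuspForm (Gamma0 N) 2)) f₀) := rfl
    rw [Set.mem_ofPred_eq, this]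
    exact hecke_L3 S.2 hT

theorem mem_mIdeal [NeZero N] (f₀ : CuspForm (Gamma0 N) 2) (T : CuspForm.heckeAlgebra N 2 ∅) :
    T ∈ mIdeal N f₀ ↔ (T : Module.End ℂ (CuspForm (Gamma0 N) 2)) f₀ ∈ L3 N := Iff.rfl

theorem natCast_hecke_apply [NeZero N] (f₀ : CuspForm (Gamma0 N) 2) (n : ℕ) :
    (((n : ℕ) : CuspForm.heckeAlgebra N 2 ∅) : Module.End ℂ (CuspForm (Gamma0 N) 2)) f₀
      = (n : ℤ) • f₀ := by
  have h1 : (((n : ℕ) : CuspForm.heckeAlgebra N 2 ∅) : Module.End ℂ (CuspForm (Gamma0 N) 2))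
     = ((n : ℕ) : Module.End ℂ (CuspForm (Gamma0 N) 2)) := by
    norm_cast
  rw [h1, natCast_zsmul]
  simp

theorem intCast_hecke_apply [NeZero N] (f₀ : CuspForm (Gamma0 N) 2) (n : ℤ) :
    (((n : ℤ) : CuspForm.heckeAlgebra N 2 ∅) : Module.End ℂ (CuspForm (Gamma0 N) 2)) f₀
      = (n : ℤ) • f₀ := by
  have h1 : (((n : ℤ) : CuspForm.heckeAlgebra N 2 ∅) : Module.End ℂ (CuspForm (Gamma0 N) 2))
     = ((n : ℤ) : Module.End ℂ (CuspForm (Gamma0 N) 2)) := by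
    norm_cast
  rw [h1]
  simp

theorem three_mem_mIdeal [NeZero N] (f₀ : CuspForm (Gamma0 N) 2)
    (hf₀ : f₀ ∈ CuspForm.intLattice N 2) :
    ((3 : ℕ) : CuspForm.heckeAlgebra N 2 ∅) ∈ mIdeal N f₀ := by
  rw [mem_mIdeal, natCast_hecke_apply]
  exact three_zsmul_mem_L3 hf₀

section ideal

variable [NeZero N] {a : ℕ → ℤ}
  (heig : FormalHecke.IsEigensystem
      (fun ℓ => if ℓ ∣ N then 0 else ((chiNegThree ℓ : ℤ) : ℤ)) a)
  (f₀ : CuspForm (Gamma0 N) 2) (af : ℕ → ℤ)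
  (haf : ∀ n, (af n : ℂ) = qCoeff ⇑f₀ n)
  (hcong : ∀ n, (3 : ℤ) ∣ af n - a n)

include heig haf hcong

theorem one_notMem_mIdeal : (1 : CuspForm.heckeAlgebra N 2 ∅) ∉ mIdeal N f₀ := by
  rw [mem_mIdeal]
  intro h1
  have h2 : f₀ ∈ L3 N := h1
  obtain ⟨m, hm⟩ := h2 1
  rw [← haf] at hm
  have hm' : af 1 = 3 * m := by exact_mod_cast hm
  have h3 := hcong 1
  rw [heig.1, hm'] at h3
  omega

theorem exists_sub_intCast_mem (T : CuspForm.heckeAlgebra N 2 ∅) :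
    ∃ c : ℤ, T - (c : CuspForm.heckeAlgebra N 2 ∅) ∈ mIdeal N f₀ := by
  obtain ⟨c, hc⟩ := all_mod3 heig f₀ af haf hcong T.2
  refine ⟨c, ?_⟩
  rw [mem_mIdeal]
  have : ((T - (c : CuspForm.heckeAlgebra N 2 ∅) : CuspForm.heckeAlgebra N 2 ∅) :
      Module.End ℂ (CuspForm (Gamma0 N) 2)) f₀
      = (T : Module.End ℂ (CuspForm (Gamma0 N) 2)) f₀
        - ((c : CuspForm.heckeAlgebra N 2 ∅) : Module.End ℂ (CuspForm (Gamma0 N) 2)) f₀ := rfl
  rw [this, intCast_hecke_apply]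
  exact hc

theorem heckeT_sub_mem {ℓ : ℕ} (hℓ : ℓ.Prime) (hℓN : ¬ ℓ ∣ N) :
    (CuspForm.heckeAlgebra.T hℓ hℓN (Set.notMem_empty _) : CuspForm.heckeAlgebra N 2 ∅)
      - ((a ℓ : ℤ) : CuspForm.heckeAlgebra N 2 ∅) ∈ mIdeal N f₀ := by
  rw [mem_mIdeal]
  have : (((CuspForm.heckeAlgebra.T hℓ hℓN (Set.notMem_empty _) : CuspForm.heckeAlgebra N 2 ∅)
      - ((a ℓ : ℤ) : CuspForm.heckeAlgebra N 2 ∅) : CuspForm.heckeAlgebra N 2 ∅) :
      Module.End ℂ (CuspForm (Gamma0 N) 2)) f₀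
      = CuspForm.heckeTLin 2 hℓ hℓN f₀
        - (((a ℓ : ℤ) : CuspForm.heckeAlgebra N 2 ∅) :
            Module.End ℂ (CuspForm (Gamma0 N) 2)) f₀ := rfl
  rw [this, intCast_hecke_apply]
  exact gen_T_mod3 heig f₀ af haf hcong hℓ hℓN

theorem mIdeal_isMaximal : (mIdeal N f₀).IsMaximal := by
  have hf₀ : f₀ ∈ CuspForm.intLattice N 2 := by
    rw [mem_intLat_iff]
    exact fun n => ⟨af n, (haf n).symm⟩
  rw [Ideal.isMaximal_iff]
  refine ⟨one_notMem_mIdeal heig f₀ af haf hcong, fun J x hIJ hx hxJ => ?_⟩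
  obtain ⟨c, hc⟩ := exists_sub_intCast_mem heig f₀ af haf hcong x
  have hcJ : ((c : ℤ) : CuspForm.heckeAlgebra N 2 ∅) ∈ J := by
    have : ((c : ℤ) : CuspForm.heckeAlgebra N 2 ∅) = x - (x - (c : CuspForm.heckeAlgebra N 2 ∅)) := by
      ring
    rw [this]
    exact J.sub_mem hxJ (hIJ hc)
  have h3J : ((3 : ℕ) : CuspForm.heckeAlgebra N 2 ∅) ∈ J := hIJ (three_mem_mIdeal f₀ hf₀)
  have hc3 : ¬ (3 : ℤ) ∣ c := by
    rintro ⟨c', hc'⟩
    apply hx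
    have h1 : ((c : ℤ) : CuspForm.heckeAlgebra N 2 ∅) ∈ mIdeal N f₀ := by
      have : ((c : ℤ) : CuspForm.heckeAlgebra N 2 ∅)
          = ((c' : ℤ) : CuspForm.heckeAlgebra N 2 ∅) * ((3 : ℕ) : CuspForm.heckeAlgebra N 2 ∅) := by
        rw [hc']; push_cast; ring
      rw [this]
      exact Ideal.mul_mem_left _ _ (three_mem_mIdeal f₀ hf₀)
    have : x = (x - (c : CuspForm.heckeAlgebra N 2 ∅)) + (c : CuspForm.heckeAlgebra N 2 ∅) := by
      ring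
    rw [this]
    exact Ideal.add_mem _ hc h1
  obtain ⟨u, v, huv⟩ : ∃ u v : ℤ, u * c + v * 3 = 1 := by
    have h1 : c % 3 = 1 ∨ c % 3 = 2 := by omega
    rcases h1 with h1 | h1
    · exact ⟨1, -(c / 3), by omega⟩
    · exact ⟨-1, c / 3 + 1, by omega⟩
  have : (1 : CuspForm.heckeAlgebra N 2 ∅)
      = ((u : ℤ) : CuspForm.heckeAlgebra N 2 ∅) * ((c : ℤ) : CuspForm.heckeAlgebra N 2 ∅)
        + ((v : ℤ) : CuspForm.heckeAlgebra N 2 ∅) * ((3 : ℕ) : CuspForm.heckeAlgebra N 2 ∅) := by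
    have := congrArg (fun z : ℤ => (z : CuspForm.heckeAlgebra N 2 ∅)) huv
    push_cast at this
    rw [← this]
    norm_num
  rw [this]
  exact J.add_mem (J.mul_mem_left _ hcJ) (J.mul_mem_left _ h3J)

end ideal

end Fermat.Agent.S49
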