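import Mathlib
import Fermat.Agent.S49.Algebra
import Fermat.Agent.S49.Mod3
import Fermat.Agent.S49.Formal

/-!
# The complex Hecke algebra and the eigenform attached to a character
-/

set_option autoImplicit false
open CuspForm CongruenceSubgroup ModularFormClass

namespace Fermat.Agent.S49

variable {N : ℕ}

/-- The `ℂ`-algebra generated by the Hecke operators. -/
noncomputable def heckeAlgC (N : ℕ) [NeZero N] :
    Subalgebra ℂ (Module.End ℂ (CuspForm (Gamma0 N) 2)) :=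
  Algebra.adjoin ℂ (CuspForm.heckeGenerators N 2 ∅)

instance heckeAlgC.instIsMulCommutative (N : ℕ) [NeZero N] : IsMulCommutative (heckeAlgC N) :=
  Algebra.isMulCommutative_adjoin ℂ fun _ hT _ hT' =>
    CuspForm.commute_of_mem_heckeGenerators hT hT'

open scoped IsMulCommutative in
noncomputable instance heckeAlgC.instCommRing (N : ℕ) [NeZero N] : CommRing (heckeAlgC N) :=
  inferInstance

theorem heckeAlgebra_le_heckeAlgC (N : ℕ) [NeZero N]
    {T : Module.End ℂ (CuspForm (Gamma0 N) 2)} (hT : T ∈ CuspForm.heckeAlgebra N 2 ∅) :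
    T ∈ heckeAlgC N := by
  induction hT using Algebra.adjoin_induction with
  | mem x hx => exact Algebra.subset_adjoin hx
  | algebraMap r =>
    have : algebraMap ℤ (Module.End ℂ (CuspForm (Gamma0 N) 2)) r
        = algebraMap ℂ (Module.End ℂ (CuspForm (Gamma0 N) 2)) (r : ℂ) := by
      simp
    rw [this]
    exact Subalgebra.algebraMap_mem _ _
  | add x y hx hy ihx ihy => exact Subalgebra.add_mem _ ihx ihy
  | mul x y hx hy ihx ihy => exact Subalgebra.mul_mem _ ihx ihy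

theorem heckeIncl_aux_mul [NeZero N] (S T : CuspForm.heckeAlgebra N 2 ∅) :
    (⟨(S * T).1, heckeAlgebra_le_heckeAlgC N (S * T).2⟩ : heckeAlgC N) =
      (⟨S.1, heckeAlgebra_le_heckeAlgC N S.2⟩ : heckeAlgC N)
        * (⟨T.1, heckeAlgebra_le_heckeAlgC N T.2⟩ : heckeAlgC N) := rfl

theorem heckeIncl_aux_one [NeZero N] :
    (⟨(1 : CuspForm.heckeAlgebra N 2 ∅).1,
      heckeAlgebra_le_heckeAlgC N (1 : CuspForm.heckeAlgebra N 2 ∅).2⟩ : heckeAlgC N) = 1 := rfl

theorem heckeIncl_aux_zero [NeZero N] :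
    (⟨(0 : CuspForm.heckeAlgebra N 2 ∅).1,
      heckeAlgebra_le_heckeAlgC N (0 : CuspForm.heckeAlgebra N 2 ∅).2⟩ : heckeAlgC N) = 0 := rfl

theorem heckeIncl_aux_add [NeZero N] (S T : CuspForm.heckeAlgebra N 2 ∅) :
    (⟨(S + T).1, heckeAlgebra_le_heckeAlgC N (S + T).2⟩ : heckeAlgC N) =
      (⟨S.1, heckeAlgebra_le_heckeAlgC N S.2⟩ : heckeAlgC N)
        + (⟨T.1, heckeAlgebra_le_heckeAlgC N T.2⟩ : heckeAlgC N) := rfl

/-- The inclusion of the integral Hecke algebra into the complex one. -/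
noncomputable def heckeIncl (N : ℕ) [NeZero N] : CuspForm.heckeAlgebra N 2 ∅ →+* heckeAlgC N where
  toFun T := ⟨T.1, heckeAlgebra_le_heckeAlgC N T.2⟩
  map_one' := heckeIncl_aux_one
  map_mul' S T := heckeIncl_aux_mul S T
  map_zero' := heckeIncl_aux_zero
  map_add' S T := heckeIncl_aux_add S T

theorem heckeIncl_val_mk (N : ℕ) [NeZero N] (x : Module.End ℂ (CuspForm (Gamma0 N) 2))
    (hx : x ∈ CuspForm.heckeAlgebra N 2 ∅) :
    ((heckeIncl N ⟨x, hx⟩ : heckeAlgC N) : Module.End ℂ (CuspForm (Gamma0 N) 2)) = x := rfl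

theorem heckeIncl_val (N : ℕ) [NeZero N] (T : CuspForm.heckeAlgebra N 2 ∅) :
    ((heckeIncl N T : heckeAlgC N) : Module.End ℂ (CuspForm (Gamma0 N) 2)) = T.1 := by
  obtain ⟨x, hx⟩ := T
  exact heckeIncl_val_mk N x hx

theorem heckeIncl_injective (N : ℕ) [NeZero N] : Function.Injective (heckeIncl N) := by
  intro S T h
  have h1 : ((heckeIncl N S : heckeAlgC N) : Module.End ℂ (CuspForm (Gamma0 N) 2))
      = ((heckeIncl N T : heckeAlgC N) : Module.End ℂ (CuspForm (Gamma0 N) 2)) :=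
    congrArg Subtype.val h
  rw [heckeIncl_val, heckeIncl_val] at h1
  exact Subtype.ext h1

/-- The tautological representation of the complex Hecke algebra. -/
noncomputable def heckeRep (N : ℕ) [NeZero N] :
    heckeAlgC N →ₐ[ℂ] Module.End ℂ (CuspForm (Gamma0 N) 2) :=
  (heckeAlgC N).val

theorem heckeRep_apply (N : ℕ) [NeZero N] (T : heckeAlgC N) :
    heckeRep N T = (T : Module.End ℂ (CuspForm (Gamma0 N) 2)) := rfl

theorem heckeRep_injective (N : ℕ) [NeZero N] : Function.Injective (heckeRep N) :=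
  Subtype.val_injective

/-- Nondegeneracy of the `a₁`-pairing. -/
theorem pairing_nondeg (N : ℕ) [NeZero N] (v : CuspForm (Gamma0 N) 2)
    (hv : ∀ T : heckeAlgC N, qcLin N 2 1 (heckeRep N T v) = 0) : v = 0 := by
  apply eq_zero_of_forall_qc
  intro n
  rcases Nat.eq_zero_or_pos n with hn | hn
  · rw [hn]; exact qc_cusp_zero v
  · obtain ⟨T, hT, hT'⟩ := exists_hecke_n N 2 (by norm_num) n hn
    have := hv ⟨T, heckeAlgebra_le_heckeAlgC N hT⟩
    rw [heckeRep_apply, qcLin_apply, hT'] at this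
    exact this

/-- An eigenvector attached to a character of the complex Hecke algebra. -/
theorem exists_eigenform_of_character [NeZero N] [FiniteDimensional ℂ (CuspForm (Gamma0 N) 2)]
    (χ : heckeAlgC N →ₐ[ℂ] ℂ) :
    ∃ g : CuspForm (Gamma0 N) 2, qCoeff ⇑g 1 = 1 ∧
      ∀ T : heckeAlgC N, (T : Module.End ℂ (CuspForm (Gamma0 N) 2)) g = χ T • g := by
  obtain ⟨-, g, hg⟩ := exists_vector_of_pairing (heckeRep N) (heckeRep_injective N)
    (qcLin N 2 1) (pairing_nondeg N) χ.toLinearMap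
  have hg' : ∀ T : heckeAlgC N,
      qCoeff ⇑((T : Module.End ℂ (CuspForm (Gamma0 N) 2)) g) 1 = χ T := fun T => hg T
  refine ⟨g, ?_, fun T => ?_⟩
  · have := hg' 1
    rw [map_one] at this
    rw [← this]
    rfl
  · have hsub : (T : Module.End ℂ (CuspForm (Gamma0 N) 2)) g - χ T • g = 0 := by
      apply pairing_nondeg N
      intro S
      rw [heckeRep_apply, qcLin_apply, map_sub, map_smul, qc_sub, qc_smul, hg' S]
      have h1 : (S : Module.End ℂ (CuspForm (Gamma0 N) 2))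
          ((T : Module.End ℂ (CuspForm (Gamma0 N) 2)) g)
          = ((S * T : heckeAlgC N) : Module.End ℂ (CuspForm (Gamma0 N) 2)) g := rfl
      rw [h1, hg' (S * T), map_mul]
      ring
    exact sub_eq_zero.mp hsub

/-- The q-coefficients of a normalised simultaneous eigenvector form a formal eigensystem. -/
theorem isEigensystem_of_eigen [NeZero N] (χ : heckeAlgC N →ₐ[ℂ] ℂ) (g : CuspForm (Gamma0 N) 2)
    (hg1 : qCoeff ⇑g 1 = 1)
    (hg : ∀ T : heckeAlgC N, (T : Module.End ℂ (CuspForm (Gamma0 N) 2)) g = χ T • g) :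
    FormalHecke.IsEigensystem (fun ℓ : ℕ => if ℓ ∣ N then (0 : ℂ) else (ℓ : ℂ))
      (fun n => qCoeff ⇑g n) := by
  refine ⟨hg1, fun ℓ hℓ n => ?_⟩
  by_cases hℓN : ℓ ∣ N
  · simp only [if_pos hℓN, zero_mul, add_zero]
    have hU : CuspForm.heckeULin 2 hℓN ∈ heckeAlgC N :=
      Algebra.subset_adjoin (CuspForm.heckeULin_mem_heckeGenerators hℓ hℓN (Set.notMem_empty _))
    have h1 := hg ⟨_, hU⟩
    have h2 : ∀ m, qCoeff ⇑g (m * ℓ) = χ ⟨_, hU⟩ * qCoeff ⇑g m := by
      intro m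
      rw [← qc_heckeU hℓ hℓN, ← qc_smul]
      exact congrArg (fun f : CuspForm (Gamma0 N) 2 => qCoeff ⇑f m) h1
    have h3 := h2 1
    rw [one_mul, hg1, mul_one] at h3
    rw [mul_comm ℓ n, h2 n, h3]
  · simp only [if_neg hℓN]
    have hT : CuspForm.heckeTLin 2 hℓ hℓN ∈ heckeAlgC N :=
      Algebra.subset_adjoin (CuspForm.heckeTLin_mem_heckeGenerators hℓ hℓN (Set.notMem_empty _))
    have h1 := hg ⟨_, hT⟩
    have hpow : ((ℓ : ℂ)) ^ ((2 : ℤ) - 1) = (ℓ : ℂ) := by norm_num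
    have h2 : ∀ m, qCoeff ⇑g (m * ℓ) + (if ℓ ∣ m then (ℓ : ℂ) * qCoeff ⇑g (m / ℓ) else 0)
        = χ ⟨_, hT⟩ * qCoeff ⇑g m := by
      intro m
      rw [← hpow, ← qc_heckeT hℓ hℓN, ← qc_smul]
      exact congrArg (fun f : CuspForm (Gamma0 N) 2 => qCoeff ⇑f m) h1
    have h3 := h2 1
    have h1' : ¬ ℓ ∣ 1 := fun h => hℓ.one_lt.ne' (Nat.dvd_one.mp h)
    rw [one_mul, hg1, mul_one, if_neg h1', add_zero] at h3
    rw [mul_comm ℓ n, h3, ← h2 n]
    split_ifs <;> ring

theorem isNormalizedEigenform_of_eigen [NeZero N] (χ : heckeAlgC N →ₐ[ℂ] ℂ)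
    (g : CuspForm (Gamma0 N) 2) (hg1 : qCoeff ⇑g 1 = 1)
    (hg : ∀ T : heckeAlgC N, (T : Module.End ℂ (CuspForm (Gamma0 N) 2)) g = χ T • g) :
    g.IsNormalizedEigenform := by
  have hE := isEigensystem_of_eigen χ g hg1 hg
  refine ⟨hg1, formal_mul_of_coprime hE, fun p r hp hpN => ?_, fun p r hp hpN => ?_⟩
  · have := formal_primePow_rec hE hp r
    simp only [if_neg hpN] at this
    exact this
  · have := formal_primePow_rec hE hp r
    simp only [if_pos hpN, zero_mul, sub_zero] at this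
    exact this

theorem qCoeff_prime_of_eigen [NeZero N] (χ : heckeAlgC N →ₐ[ℂ] ℂ)
    (g : CuspForm (Gamma0 N) 2) (hg1 : qCoeff ⇑g 1 = 1)
    (hg : ∀ T : heckeAlgC N, (T : Module.End ℂ (CuspForm (Gamma0 N) 2)) g = χ T • g)
    {ℓ : ℕ} (hℓ : ℓ.Prime) (hℓN : ¬ ℓ ∣ N) :
    qCoeff ⇑g ℓ = χ (heckeIncl N (CuspForm.heckeAlgebra.T hℓ hℓN (Set.notMem_empty _))) := by
  have h1 := hg (heckeIncl N (CuspForm.heckeAlgebra.T hℓ hℓN (Set.notMem_empty _)))
  have h2 : qCoeff ⇑(CuspForm.heckeTLin 2 hℓ hℓN g) 1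
      = χ (heckeIncl N (CuspForm.heckeAlgebra.T hℓ hℓN (Set.notMem_empty _))) * qCoeff ⇑g 1 := by
    rw [← qc_smul]
    exact congrArg (fun f : CuspForm (Gamma0 N) 2 => qCoeff ⇑f 1) h1
  have h1' : ¬ ℓ ∣ 1 := fun h => hℓ.one_lt.ne' (Nat.dvd_one.mp h)
  rw [qc_heckeT hℓ hℓN, one_mul, if_neg h1', add_zero, hg1, mul_one] at h2
  exact h2

/-- The values of a character on the integral Hecke algebra are algebraic integers. -/
theorem isIntegral_char [NeZero N] (h : CuspForm.HasIntegralBasis N) (χ : heckeAlgC N →ₐ[ℂ] ℂ)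
    (T : CuspForm.heckeAlgebra N 2 ∅) : IsIntegral ℤ (χ (heckeIncl N T)) := by
  have h1 : IsIntegral ℤ (T.1 : Module.End ℂ (CuspForm (Gamma0 N) 2)) :=
    isIntegral_of_preserves_lattice (CuspForm.intLattice N 2) (CuspForm.intLattice_fg N 2)
      (span_intLat_eq_top h) T.1
      (fun x hx => CuspForm.mem_intLattice_of_mem_heckeAlgebra (by norm_num) T.2 hx)
  obtain ⟨P, hPm, hP⟩ := h1
  refine ⟨P, hPm, ?_⟩
  have e1 : algebraMap ℤ (Module.End ℂ (CuspForm (Gamma0 N) 2))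
      = ((heckeRep N : heckeAlgC N →+* Module.End ℂ (CuspForm (Gamma0 N) 2))).comp
          (Int.castRingHom (heckeAlgC N)) := RingHom.ext_int _ _
  have e2 : algebraMap ℤ ℂ = (χ : heckeAlgC N →+* ℂ).comp (Int.castRingHom (heckeAlgC N)) :=
    RingHom.ext_int _ _
  have h2 : Polynomial.eval₂ (Int.castRingHom (heckeAlgC N)) (heckeIncl N T) P = 0 := by
    apply heckeRep_injective N
    rw [map_zero]
    have h3 := Polynomial.hom_eval₂ P (Int.castRingHom (heckeAlgC N))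
      (heckeRep N : heckeAlgC N →+* Module.End ℂ (CuspForm (Gamma0 N) 2)) (heckeIncl N T)
    rw [← e1] at h3
    have h4 : (heckeRep N : heckeAlgC N →+* Module.End ℂ (CuspForm (Gamma0 N) 2))
        (heckeIncl N T) = T.1 := heckeIncl_val N T
    rw [h4, hP] at h3
    exact h3
  rw [e2]
  have h5 := Polynomial.hom_eval₂ P (Int.castRingHom (heckeAlgC N))
      (χ : heckeAlgC N →+* ℂ) (heckeIncl N T)
  rw [h2, map_zero] at h5
  exact h5.symm

end Fermat.Agent.S49
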